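/-
S56 / block EC-MULT (helper134) : the unconditional inputs from S55.
* `contract_exists` : the formal contract exists for every `S ∋ p`, `p` odd;
* `chi2_mu`         : the (non equivariant) Euler characteristic of `μ_F`, `F ∋ μ_p`;
* `fin2_mu`         : `H^i_S(μ_F)` is finite for `i ≤ 2`.
-/
import Fermat.Agent.S55.Asm.Main

set_option autoImplicit false

namespace Fermat.Agent.S56.EC.Mult

open Fermat.Agent.S55

variable {S : Finset Nat.Primes} {p : ℕ} [Fact p.Prime]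

/-- The formal contract of S55 exists. -/
theorem contract_exists (hp2 : p ≠ 2) (hpS : ExtCitation.pPrime p ∈ S) :
    Nonempty (Contract S p) := by
  obtain ⟨I⟩ := Asm.arithInput_exists (S := S) hp2 hpS
  exact F2.contract_of_arithInput I

/-- The Euler characteristic of `μ_F` (`F ∋ μ_p`), without hypotheses. -/
theorem chi2_mu (hp2 : p ≠ 2) (hpS : ExtCitation.pPrime p ∈ S) (U : Subgroup GQ)
    (hU : (lvlS S).IsOpen U) (hUμ : ActsTrivially U (Mu p)) [Finite (GQ ⧸ U)] :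
    Nat.card (Hsm (lvlS S) (IndMod (GQ ⧸ U) (Mu p)) 0) = p ∧
    Nat.card (Hsm (lvlS S) (IndMod (GQ ⧸ U) (Mu p)) 1) ≠ 0 ∧
    Nat.card (Hsm (lvlS S) (IndMod (GQ ⧸ U) (Mu p)) 2) ≠ 0 ∧
    Nat.card (Hsm (lvlS S) (IndMod (GQ ⧸ U) (Mu p)) 1) ^ 2 =
      (Nat.card (Hsm (lvlS S) (IndMod (GQ ⧸ U) (Mu p)) 0) *
        Nat.card (Hsm (lvlS S) (IndMod (GQ ⧸ U) (Mu p)) 2)) ^ 2 * p ^ Nat.card (GQ ⧸ U) := by
  have hp : p.Prime := Fact.out
  have L : ∀ q, LocPkg p q := fun q => Classical.choice (Asm.locPkg_exists p q)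
  have N := Dict.nitOut_of_locPkg hp hp2 L
  have B := brPkg hp2 L N
  exact T1.chi2_mu hpS L U hU hUμ
    (T1.u4Tors_of hpS L (Units.needL7_of_locPkg L S) (Units.needB1_of_brPkg B)
      (Units.needB3_of_brPkg B S) (Units.needB4_of_brPkg B S hpS) U hU hUμ)
    (Units.Cl.unitInput S hp hp2 U hU hUμ)

/-- `H^i_S(μ_F)` is finite for `i ≤ 2`. -/
theorem fin2_mu (hp2 : p ≠ 2) (hpS : ExtCitation.pPrime p ∈ S) (U : Subgroup GQ)
    (hU : (lvlS S).IsOpen U) (hUμ : ActsTrivially U (Mu p)) :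
    Chi2.Fin2 (lvlS S) (IndMod (GQ ⧸ U) (Mu p)) := by
  have hp : p.Prime := Fact.out
  have := hU.finiteIndex
  have : Finite (GQ ⧸ U) := Subgroup.finite_quotient_of_finiteIndex
  obtain ⟨h0, h1, h2, -⟩ := chi2_mu hp2 hpS U hU hUμ
  exact ⟨Nat.finite_of_card_ne_zero (by rw [h0]; exact hp.ne_zero),
    Nat.finite_of_card_ne_zero h1, Nat.finite_of_card_ne_zero h2⟩

end Fermat.Agent.S56.EC.Mult
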