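/-
S56 / block EC-MULT (helper134), (M1) : `H^i_S(N)` is finite for `i ≤ 2` and every coefficient
module `N`.
PROOF.  `N ↪ I = Map(G/V, N)`, `V` a level acting trivially on `N` and `μ_p`; `I` is a finite
product of copies of `μ_F` (S55/F2 untwisting), whose cohomology is finite by `fin2_mu`; two steps
of the long exact sequence.
-/
import Fermat.Agent.S56.EC.Mult.Input

set_option autoImplicit false

namespace Fermat.Agent.S56.EC.Mult

open Fermat.Agent.S55

variable {S : Finset Nat.Primes} {p : ℕ}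

section coef

variable {N N' : Type} [AddCommGroup N] [DistribMulAction GQ N] [AddCommGroup N']
  [DistribMulAction GQ N']

theorem isCoef_of_surjective (hN : IsCoef S p N) (ψ : N →+[GQ] N') (hψ : Function.Surjective ψ) :
    IsCoef S p N' where
  finite := by
    have := hN.finite
    exact Finite.of_surjective ψ hψ
  ptors := fun x => by
    obtain ⟨y, rfl⟩ := hψ x
    rw [← map_nsmul, hN.ptors, map_zero]
  smooth := by
    have := hN.smooth
    exact Smooth.of_surjective ψ hψ

theorem isCoef_of_injective (hN : IsCoef S p N) (φ : N' →+[GQ] N) (hφ : Function.Injective φ) :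
    IsCoef S p N' where
  finite := by
    have := hN.finite
    exact Finite.of_injective φ hφ
  ptors := fun x => hφ (by rw [map_nsmul, hN.ptors, map_zero])
  smooth := by
    have := hN.smooth
    exact Smooth.of_injective φ hφ

theorem ShortExact.isCoef_left {N'' : Type} [AddCommGroup N''] [DistribMulAction GQ N'']
    {φ : N' →+[GQ] N} {ψ : N →+[GQ] N''} (h : ShortExact φ ψ) (hN : IsCoef S p N) :
    IsCoef S p N' := isCoef_of_injective hN φ h.inj

theorem ShortExact.isCoef_right {N'' : Type} [AddCommGroup N''] [DistribMulAction GQ N'']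
    {φ : N' →+[GQ] N} {ψ : N →+[GQ] N''} (h : ShortExact φ ψ) (hN : IsCoef S p N) :
    IsCoef S p N'' := isCoef_of_surjective hN ψ h.surj

end coef

section pi

variable {G : Type} [Group G] {𝓝 : LevelSys G}

/-- Finiteness passes to finite products. -/
theorem fin2_pi (ι : Type) [Finite ι] {A : Type} [AddCommGroup A] [DistribMulAction G A]
    (h : Chi2.Fin2 𝓝 A) : Chi2.Fin2 𝓝 (ι → A) := by
  have := h.h0
  have := h.h1
  have := h.h2
  exact ⟨Finite.of_injective _ (F2.HFun.piMap_bijective (F2.hsmFun 𝓝 0) ι A).1,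
    Finite.of_injective _ (F2.HFun.piMap_bijective (F2.hsmFun 𝓝 1) ι A).1,
    Finite.of_injective _ (F2.HFun.piMap_bijective (F2.hsmFun 𝓝 2) ι A).1⟩

/-- Finiteness is invariant under equivariant isomorphisms. -/
theorem fin2_of_equiv {A B : Type} [AddCommGroup A] [DistribMulAction G A] [AddCommGroup B]
    [DistribMulAction G B] (e : A ≃+ B) (he : IsEquivariant G e.toAddMonoidHom)
    (h : Chi2.Fin2 𝓝 A) : Chi2.Fin2 𝓝 B :=
  Chi2.Fin2.of_bijective (φ := F2.mkHom e.toAddMonoidHom he) e.bijective h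

end pi

variable [Fact p.Prime]

/-- `H^i_S(Map(G/V, N))` is finite, `i ≤ 2`, if `V` acts trivially on `N` and on `μ_p`. -/
theorem fin2_ind (hp2 : p ≠ 2) (hpS : ExtCitation.pPrime p ∈ S) (N : Type) [AddCommGroup N]
    [DistribMulAction GQ N] (hN : IsCoef S p N) (V : Subgroup GQ) (hV : V ∈ (lvlS S).carrier)
    (hVN : ActsTrivially V N) (hVμ : ActsTrivially V (Mu p)) :
    Chi2.Fin2 (lvlS S) (IndMod (GQ ⧸ V) N) := by
  have := hN.finite
  have := (lvlS S).finiteIndex V hV
  obtain ⟨d, -, E, -, hE, -⟩ := F2.exists_untwist_coeff_push p N hN.ptors V V le_rfl hVN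
  obtain ⟨e, he⟩ := F2.exists_untwist_quotient p (Mu p) (Bridge.cardMu p) V hVμ
  have h1 : Chi2.Fin2 (lvlS S) (IndMod (GQ ⧸ V) (F2.Fp p)) :=
    fin2_of_equiv e.symm (F2.isEquivariant_symm e he)
      (fin2_mu hp2 hpS V (LevelSys.isOpen_of_mem hV) hVμ)
  exact fin2_of_equiv E.symm (F2.isEquivariant_symm E hE) (fin2_pi (Fin d) h1)

/-- A level acting trivially on `N` and on `μ_p`. -/
theorem exists_level (hpS : ExtCitation.pPrime p ∈ S) (N : Type) [AddCommGroup N]
    [DistribMulAction GQ N] (hN : IsCoef S p N) :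
    ∃ V ∈ (lvlS S).carrier, ActsTrivially V N ∧ ActsTrivially V (Mu p) := by
  have := hN.finite
  have := hN.smooth
  have hμ := Bridge.coefMu S hpS
  have := hμ.finite
  have := hμ.smooth
  obtain ⟨U₀, hU₀⟩ := (lvlS S).nonempty
  obtain ⟨U₁, hU₁, -, h1⟩ := F2.exists_level_actsTrivially (lvlS S) N U₀ hU₀
  obtain ⟨U₂, hU₂, hle, h2⟩ := F2.exists_level_actsTrivially (lvlS S) (Mu p) U₁ hU₁
  exact ⟨U₂, hU₂, fun u hu a => h1 u (hle hu) a, h2⟩

omit [Fact p.Prime] in
theorem finite_H0 (N : Type) [AddCommGroup N] [DistribMulAction GQ N] (hN : IsCoef S p N) :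
    Finite (Hsm (lvlS S) N 0) := by
  have := hN.finite
  exact Finite.of_injective _ (Hsm.H0equiv (𝓝 := lvlS S) (A := N)).injective

theorem finite_H1 (hp2 : p ≠ 2) (hpS : ExtCitation.pPrime p ∈ S) (N : Type) [AddCommGroup N]
    [DistribMulAction GQ N] (hN : IsCoef S p N) : Finite (Hsm (lvlS S) N 1) := by
  obtain ⟨V, hV, hVN, hVμ⟩ := exists_level hpS N hN
  have hI := Formal.isCoef_indMod hN hV
  have := hI.smooth
  have hex := ShortExact.of_injective (IndMod.const_injective (G := GQ) (X := GQ ⧸ V) (A := N))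
  have := finite_H0 _ (ShortExact.isCoef_right hex hI)
  have := (fin2_ind hp2 hpS N hN V hV hVN hVμ).h1
  exact Chi2.finite_of_exact _ _ (Hsm.exact_delta_map (𝓝 := lvlS S) hex 0)

theorem finite_H2 (hp2 : p ≠ 2) (hpS : ExtCitation.pPrime p ∈ S) (N : Type) [AddCommGroup N]
    [DistribMulAction GQ N] (hN : IsCoef S p N) : Finite (Hsm (lvlS S) N 2) := by
  obtain ⟨V, hV, hVN, hVμ⟩ := exists_level hpS N hN
  have hI := Formal.isCoef_indMod hN hV
  have := hI.smooth
  have hex := ShortExact.of_injective (IndMod.const_injective (G := GQ) (X := GQ ⧸ V) (A := N))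
  have := finite_H1 hp2 hpS _ (ShortExact.isCoef_right hex hI)
  have := (fin2_ind hp2 hpS N hN V hV hVN hVμ).h2
  exact Chi2.finite_of_exact _ _ (Hsm.exact_delta_map (𝓝 := lvlS S) hex 1)

/-- **(M1)** `H^i_S(N)` is finite for `i ≤ 2` and every coefficient module `N`. -/
theorem fin2 (hp2 : p ≠ 2) (hpS : ExtCitation.pPrime p ∈ S) (N : Type) [AddCommGroup N]
    [DistribMulAction GQ N] (hN : IsCoef S p N) : Chi2.Fin2 (lvlS S) N :=
  ⟨finite_H0 N hN, finite_H1 hp2 hpS N hN, finite_H2 hp2 hpS N hN⟩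

end Fermat.Agent.S56.EC.Mult
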