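/-
S56 / block EC-MULT (helper134) : the `(-1)`-eigenspace of an involution `c` is exact on modules
killed by an odd number.
-/
import Fermat.Agent.S56.EC.Defs
import Fermat.Agent.S55.Formal.Chi2.Count
import Fermat.Agent.S55.Coh.LES

set_option autoImplicit false

namespace Fermat.Agent.S56.EC.Mult

open Fermat.Agent.S55

variable {G : Type} [Group G] (c : G)

/-- The `(-1)`-eigenspace of `c` as a subgroup. -/
def minusSub (N : Type) [AddCommGroup N] [DistribMulAction G N] : AddSubgroup N where
  carrier := {n | c • n = -n}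
  zero_mem' := by simp
  add_mem' {a b} ha hb := by
    simp only [Set.mem_ofPred_eq] at ha hb ⊢
    rw [smul_add, ha, hb, neg_add]
  neg_mem' {a} ha := by
    simp only [Set.mem_ofPred_eq] at ha ⊢
    rw [smul_neg, ha]

variable {c}

theorem mem_minusSub {N : Type} [AddCommGroup N] [DistribMulAction G N] {n : N} :
    n ∈ minusSub c N ↔ c • n = -n := Iff.rfl

theorem card_minus (N : Type) [AddCommGroup N] [DistribMulAction G N] :
    Nat.card (Minus c N) = Nat.card (minusSub c N) := rfl

variable {A B C : Type} [AddCommGroup A] [DistribMulAction G A] [AddCommGroup B]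
  [DistribMulAction G B] [AddCommGroup C] [DistribMulAction G C]

variable (c) in
/-- Functoriality of the `(-1)`-eigenspace. -/
def minusMap (φ : A →+[G] B) : minusSub c A →+ minusSub c B where
  toFun a := ⟨φ a.1, by
    have := a.2
    rw [mem_minusSub] at this ⊢
    rw [← map_smul, this, map_neg]⟩
  map_zero' := Subtype.ext (map_zero φ)
  map_add' a b := Subtype.ext (map_add φ a.1 b.1)

@[simp] theorem coe_minusMap (φ : A →+[G] B) (a : minusSub c A) :
    (minusMap c φ a : B) = φ a.1 := rfl

theorem card_minus_of_bijective {φ : A →+[G] B} (hφ : Function.Bijective φ) :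
    Nat.card (Minus c A) = Nat.card (Minus c B) := by
  rw [card_minus, card_minus]
  refine Nat.card_eq_of_bijective (minusMap c φ) ⟨fun a b h => ?_, fun b => ?_⟩
  · exact Subtype.ext (hφ.1 (congrArg Subtype.val h))
  · obtain ⟨a, ha⟩ := hφ.2 b.1
    refine ⟨⟨a, ?_⟩, Subtype.ext ha⟩
    rw [mem_minusSub]
    apply hφ.1
    rw [map_smul, map_neg, ha]
    exact b.2

/-- The `(-1)`-eigenspace of an involution is exact on modules killed by an odd number. -/
theorem card_minus_mul (hc : c * c = 1) {φ : A →+[G] B} {ψ : B →+[G] C} (h : ShortExact φ ψ)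
    {p : ℕ} (hp : Odd p) (hB : ∀ b : B, p • b = 0) :
    Nat.card (Minus c B) = Nat.card (Minus c A) * Nat.card (Minus c C) := by
  rw [card_minus, card_minus, card_minus]
  have hex : Function.Exact (minusMap c φ) (minusMap c ψ) := by
    intro b
    constructor
    · intro hb
      have hb' : ψ b.1 = 0 := congrArg Subtype.val hb
      obtain ⟨a, ha⟩ := (h.exact b.1).1 hb'
      refine ⟨⟨a, ?_⟩, Subtype.ext ha⟩
      rw [mem_minusSub]
      apply h.inj
      rw [map_smul, map_neg, ha]
      exact b.2
    · rintro ⟨a, rfl⟩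
      exact Subtype.ext (h.comp_eq_zero a.1)
  have hinj : Function.Injective (minusMap c φ) := fun a b hab =>
    Subtype.ext (h.inj (congrArg Subtype.val hab))
  have hsurj : Function.Surjective (minusMap c ψ) := by
    intro z
    obtain ⟨b, hb⟩ := h.surj z.1
    obtain ⟨m, hm⟩ := hp
    have hC : ∀ x : C, p • x = 0 := by
      intro x
      obtain ⟨y, rfl⟩ := h.surj x
      rw [← map_nsmul, hB, map_zero]
    refine ⟨⟨(m + 1) • (b - c • b), ?_⟩, Subtype.ext ?_⟩
    · rw [mem_minusSub, smul_comm c (m + 1), smul_sub, smul_smul, hc, one_smul, ← smul_neg, neg_sub]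
    · have hz : c • z.1 = -z.1 := z.2
      rw [coe_minusMap]
      change ψ ((m + 1) • (b - c • b)) = z.1
      rw [map_nsmul, map_sub, map_smul, hb, hz, sub_neg_eq_add, ← two_nsmul, smul_smul]
      have h2 : (m + 1) * 2 = p + 1 := by rw [hm]; ring
      rw [h2, add_smul, hC, zero_add, one_smul]
  rw [Chi2.card_eq_of_exact _ _ hex, ← Chi2.card_eq_of_injective _ hinj,
    AddMonoidHom.range_eq_top.2 hsurj]
  congr 1
  exact Nat.card_congr AddSubgroup.topEquiv.toEquiv

end Fermat.Agent.S56.EC.Mult
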