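/-
S56 / block EC-MULT (helper134) : THE EXPORT.
`eS S c N = #H^0_S(N) #H^2_S(N) #N^{c=-1} / #H^1_S(N) ∈ ℚ` is positive (M1), multiplicative in short
exact sequences of coefficient modules (M2), invariant under isomorphisms (M3), and
`ECProp S c N ↔ eS S c N = 1`.  No hypotheses other than `p` odd, `p ∈ S`, `c * c = 1`.
-/
import Fermat.Agent.S56.EC.Mult.Finite
import Fermat.Agent.S56.EC.Mult.Minus

set_option autoImplicit false

namespace Fermat.Agent.S56.EC

open Fermat.Agent.S55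

/-- A complex conjugation is an involution. -/
theorem IsConj.mul_self {c : GQ} (hc : IsConj c) : c * c = 1 := by
  obtain ⟨ι, h⟩ := hc
  ext x
  apply ι.injective
  change ι (c (c x)) = ι x
  rw [h, h, Complex.conj_conj]

/-- The multiplicative Euler characteristic
`#H^0_S(N) #H^2_S(N) #N^{c=-1} / #H^1_S(N)`. -/
noncomputable def eS (S : Finset Nat.Primes) (c : GQ) (N : Type) [AddCommGroup N]
    [DistribMulAction GQ N] : ℚ :=
  ((Nat.card (Hsm (lvlS S) N 0) * Nat.card (Hsm (lvlS S) N 2) * Nat.card (Minus c N) : ℕ) : ℚ) /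
    (Nat.card (Hsm (lvlS S) N 1) : ℚ)

variable {S : Finset Nat.Primes} {p : ℕ} [Fact p.Prime]

section

variable {N : Type} [AddCommGroup N] [DistribMulAction GQ N]

omit [Fact p.Prime] in
theorem card_minus_pos (c : GQ) (hN : IsCoef S p N) : 0 < Nat.card (Minus c N) := by
  have := hN.finite
  have : Nonempty (Minus c N) := ⟨⟨0, by simp⟩⟩
  exact Nat.card_pos

/-- **(M1)** finiteness, in the form used by `ECProp`. -/
theorem finite_Hsm (hp2 : p ≠ 2) (hpS : ExtCitation.pPrime p ∈ S) (hN : IsCoef S p N) :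
    Finite (Hsm (lvlS S) N 0) ∧ Finite (Hsm (lvlS S) N 1) ∧ Finite (Hsm (lvlS S) N 2) :=
  have h := Mult.fin2 hp2 hpS N hN
  ⟨h.h0, h.h1, h.h2⟩

/-- `eS` is positive on coefficient modules. -/
theorem eS_pos (hp2 : p ≠ 2) (hpS : ExtCitation.pPrime p ∈ S) (c : GQ) (hN : IsCoef S p N) :
    0 < eS S c N := by
  obtain ⟨h0, h1, h2⟩ := finite_Hsm hp2 hpS hN
  unfold eS
  have := card_minus_pos c hN
  have a0 : 0 < Nat.card (Hsm (lvlS S) N 0) := Nat.card_pos
  have a1 : 0 < Nat.card (Hsm (lvlS S) N 1) := Nat.card_pos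
  have a2 : 0 < Nat.card (Hsm (lvlS S) N 2) := Nat.card_pos
  positivity

/-- `ECProp` is `eS = 1`. -/
theorem ecProp_iff (hp2 : p ≠ 2) (hpS : ExtCitation.pPrime p ∈ S) (c : GQ) (hN : IsCoef S p N) :
    ECProp S c N ↔ eS S c N = 1 := by
  obtain ⟨h0, h1, h2⟩ := finite_Hsm hp2 hpS hN
  have a1 : (Nat.card (Hsm (lvlS S) N 1) : ℚ) ≠ 0 := by
    have : 0 < Nat.card (Hsm (lvlS S) N 1) := Nat.card_pos
    positivity
  unfold ECProp eS
  rw [div_eq_one_iff_eq a1, Nat.cast_inj]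
  exact ⟨fun h => h.2.2.2, fun h => ⟨h0, h1, h2, h⟩⟩

end

variable {A B C : Type} [AddCommGroup A] [DistribMulAction GQ A] [AddCommGroup B]
  [DistribMulAction GQ B] [AddCommGroup C] [DistribMulAction GQ C]

omit [Fact p.Prime] in
/-- **(M3)** `eS` is invariant under isomorphisms (no hypothesis on the modules). -/
theorem eS_congr (c : GQ) {φ : A →+[GQ] B} (hφ : Function.Bijective φ) :
    eS S c A = eS S c B := by
  unfold eS
  rw [Nat.card_congr (Equiv.ofBijective _ (Hsm.map_bijective (𝓝 := lvlS S) hφ 0)),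
    Nat.card_congr (Equiv.ofBijective _ (Hsm.map_bijective (𝓝 := lvlS S) hφ 1)),
    Nat.card_congr (Equiv.ofBijective _ (Hsm.map_bijective (𝓝 := lvlS S) hφ 2)),
    Mult.card_minus_of_bijective hφ]

omit [Fact p.Prime] in
/-- **(M3)** for `ECProp`. -/
theorem ECProp.of_bijective {c : GQ} {φ : A →+[GQ] B} (hφ : Function.Bijective φ)
    (h : ECProp S c A) : ECProp S c B := by
  obtain ⟨h0, h1, h2, h3⟩ := h
  refine ⟨Finite.of_equiv _ (Equiv.ofBijective _ (Hsm.map_bijective hφ 0)),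
    Finite.of_equiv _ (Equiv.ofBijective _ (Hsm.map_bijective hφ 1)),
    Finite.of_equiv _ (Equiv.ofBijective _ (Hsm.map_bijective hφ 2)), ?_⟩
  rw [← Nat.card_congr (Equiv.ofBijective _ (Hsm.map_bijective (𝓝 := lvlS S) hφ 0)),
    ← Nat.card_congr (Equiv.ofBijective _ (Hsm.map_bijective (𝓝 := lvlS S) hφ 1)),
    ← Nat.card_congr (Equiv.ofBijective _ (Hsm.map_bijective (𝓝 := lvlS S) hφ 2)),
    ← Mult.card_minus_of_bijective hφ]
  exact h3

/-- The integral form of (M2). -/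
theorem card_mul (hp2 : p ≠ 2) (hpS : ExtCitation.pPrime p ∈ S) {c : GQ} (hc : c * c = 1)
    {φ : A →+[GQ] B} {ψ : B →+[GQ] C} (hB : IsCoef S p B) (h : ShortExact φ ψ) :
    Chi2.ev (lvlS S) B * (Chi2.od (lvlS S) A * Chi2.od (lvlS S) C) =
      Chi2.ev (lvlS S) A * Chi2.ev (lvlS S) C * Chi2.od (lvlS S) B ∧
    Nat.card (Minus c B) = Nat.card (Minus c A) * Nat.card (Minus c C) := by
  have hp : p.Prime := Fact.out
  obtain ⟨K⟩ := Mult.contract_exists (S := S) hp2 hpS
  have := hB.smooth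
  have hsurj := K.RE B C hB (Mult.ShortExact.isCoef_right h hB) ψ h.surj
  have hr : Nat.card (Hsm.delta (𝓝 := lvlS S) h 2).range = 1 := by
    have : (Hsm.delta (𝓝 := lvlS S) h 2).range = ⊥ := by
      rw [eq_bot_iff]
      rintro _ ⟨y, rfl⟩
      obtain ⟨x, rfl⟩ := hsurj y
      rw [AddSubgroup.mem_bot]
      exact Hsm.delta_map_eq_zero h 2 x
    rw [this]
    exact AddSubgroup.card_bot
  have h1 := Chi2.step_card (𝓝 := lvlS S) h
  rw [hr, mul_one] at h1
  exact ⟨h1, Mult.card_minus_mul hc h (hp.odd_of_ne_two hp2) hB.ptors⟩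

/-- **(M2)** `eS` is multiplicative in short exact sequences of coefficient modules. -/
theorem eS_mul (hp2 : p ≠ 2) (hpS : ExtCitation.pPrime p ∈ S) {c : GQ} (hc : c * c = 1)
    {φ : A →+[GQ] B} {ψ : B →+[GQ] C} (hB : IsCoef S p B) (h : ShortExact φ ψ) :
    eS S c B = eS S c A * eS S c C := by
  obtain ⟨h1, h2⟩ := card_mul hp2 hpS hc hB h
  have fA := (Mult.fin2 hp2 hpS A (Mult.ShortExact.isCoef_left h hB)).od_pos
  have fB := (Mult.fin2 hp2 hpS B hB).od_pos
  have fC := (Mult.fin2 hp2 hpS C (Mult.ShortExact.isCoef_right h hB)).od_pos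
  unfold Chi2.ev at h1
  unfold Chi2.od at h1 fA fB fC
  unfold eS
  rw [h2]
  have gA : (Nat.card (Hsm (lvlS S) A 1) : ℚ) ≠ 0 := by positivity
  have gB : (Nat.card (Hsm (lvlS S) B 1) : ℚ) ≠ 0 := by positivity
  have gC : (Nat.card (Hsm (lvlS S) C 1) : ℚ) ≠ 0 := by positivity
  have h1' := congrArg (fun n : ℕ => (n : ℚ)) h1
  simp only [Nat.cast_mul] at h1' ⊢
  field_simp
  linear_combination (Nat.card (Minus c A) : ℚ) * (Nat.card (Minus c C) : ℚ) * h1'

/-- **(M2)**, two out of three. -/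
theorem ECProp.of_shortExact (hp2 : p ≠ 2) (hpS : ExtCitation.pPrime p ∈ S) {c : GQ}
    (hc : c * c = 1) {φ : A →+[GQ] B} {ψ : B →+[GQ] C} (hB : IsCoef S p B) (h : ShortExact φ ψ) :
    (ECProp S c A → ECProp S c C → ECProp S c B) ∧ (ECProp S c A → ECProp S c B → ECProp S c C) ∧
      (ECProp S c B → ECProp S c C → ECProp S c A) := by
  have hA := Mult.ShortExact.isCoef_left h hB
  have hC := Mult.ShortExact.isCoef_right h hB
  rw [ecProp_iff hp2 hpS c hA, ecProp_iff hp2 hpS c hB, ecProp_iff hp2 hpS c hC,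
    eS_mul hp2 hpS hc hB h]
  refine ⟨fun a b => by rw [a, b, mul_one], fun a b => by rwa [a, one_mul] at b,
    fun a b => by rwa [b, mul_one] at a⟩

end Fermat.Agent.S56.EC
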